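import Fermat.Agent.S30.H870.Lucas

/-!
# From approximate to exact quadratic relations

Let `R` be a Noetherian local ring with maximal ideal `𝔪` and `M` a finite free `R`-module.
If for every `n` there is `a` with `T² - a T + d ≡ 0` modulo `𝔪ⁿ`, then there is `a` with
`T² - a T + d = 0`.  (Krull's intersection theorem on `End(M) / R T`; no compactness needed.)
-/

set_option autoImplicit false

namespace Fermat.Agent.S30.H870

section

variable {R : Type*} [CommRing R] {M : Type*} [AddCommGroup M] [Module R M]

/-- Linear maps preserve `J • ⊤`. -/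
theorem map_mem_smul_top {N : Type*} [AddCommGroup N] [Module R N] (J : Ideal R)
    (f : M →ₗ[R] N) {x : M} (hx : x ∈ J • (⊤ : Submodule R M)) :
    f x ∈ J • (⊤ : Submodule R N) := by
  refine Submodule.smul_induction_on hx ?_ ?_
  · intro r hr m _
    rw [map_smul]
    exact Submodule.smul_mem_smul hr Submodule.mem_top
  · intro u v hu hv
    rw [map_add]
    exact Submodule.add_mem _ hu hv

/-- An endomorphism of a finite free module with image in `J M` lies in `J End(M)`. -/
theorem mem_smul_top_end [Module.Free R M] [Module.Finite R M] (J : Ideal R)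
    (X : Module.End R M) (hX : ∀ v, X v ∈ J • (⊤ : Submodule R M)) :
    X ∈ J • (⊤ : Submodule R (Module.End R M)) := by
  classical
  let b := Module.Free.chooseBasis R M
  have hsum : X = ∑ i, (b.coord i).smulRight (X (b i)) := by
    apply b.ext
    intro j
    rw [LinearMap.sum_apply]
    simp only [LinearMap.smulRight_apply, Module.Basis.coord_apply, Module.Basis.repr_self]
    rw [Finset.sum_eq_single j]
    · rw [Finsupp.single_eq_same, one_smul]
    · intro i _ hij
      rw [Finsupp.single_eq_of_ne hij, zero_smul]
    · intro h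
      exact absurd (Finset.mem_univ j) h
  rw [hsum]
  refine Submodule.sum_mem _ (fun i _ => ?_)
  exact map_mem_smul_top J (LinearMap.smulRightₗ (b.coord i)) (hX (b i))

end

section

variable {R : Type*} [CommRing R] [IsNoetherianRing R] [IsLocalRing R]
variable {M : Type*} [AddCommGroup M] [Module R M] [Module.Free R M] [Module.Finite R M]

/-- **Approximate quadratic relations are exact.** -/
theorem exists_qrel_of_approx (T : Module.End R M) (d : R)
    (h : ∀ n : ℕ, ∃ a : R, ∀ v : M,
      (T * T - a • T + d • (1 : Module.End R M)) v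
        ∈ (IsLocalRing.maximalIdeal R ^ n) • (⊤ : Submodule R M)) :
    ∃ a : R, QRel T a d := by
  set P : Submodule R (Module.End R M) := Submodule.span R {T} with hP
  have hy : P.mkQ (T * T + d • (1 : Module.End R M)) ∈
      (⨅ n : ℕ, (IsLocalRing.maximalIdeal R ^ n) • (⊤ : Submodule R (Module.End R M ⧸ P))) := by
    rw [Submodule.mem_iInf]
    intro n
    obtain ⟨a, ha⟩ := h n
    have hX := mem_smul_top_end (IsLocalRing.maximalIdeal R ^ n) _ ha
    have hmk := map_mem_smul_top (IsLocalRing.maximalIdeal R ^ n) P.mkQ hX
    have hT : P.mkQ T = 0 := by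
      rw [Submodule.mkQ_apply, Submodule.Quotient.mk_eq_zero]
      exact Submodule.mem_span_singleton_self T
    have : P.mkQ (T * T + d • (1 : Module.End R M))
        = P.mkQ (T * T - a • T + d • (1 : Module.End R M)) := by
      rw [map_add, map_add, map_sub, map_smul _ a T, hT, smul_zero, sub_zero]
    rw [this]
    exact hmk
  rw [Ideal.iInf_pow_smul_eq_bot_of_isLocalRing _ Ideal.IsPrime.ne_top', Submodule.mem_bot,
    Submodule.mkQ_apply, Submodule.Quotient.mk_eq_zero, hP, Submodule.mem_span_singleton] at hy
  obtain ⟨a, ha⟩ := hy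
  refine ⟨a, ?_⟩
  show T * T - a • T + d • (1 : Module.End R M) = 0
  rw [ha]
  abel

end

end Fermat.Agent.S30.H870
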