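import Fermat.Agent.S30.H870.Sat

/-!
# The abstract core of the S30 top glue

Let `R` be a principal ideal domain with `2 ≠ 0`, `M` a nonzero finite free `R`-module with an
action `ρ` of a group `G`, and `ε : G →* Rˣ` a character.  Assume every `ρ(g)` satisfies a
quadratic relation `ρ(g)² - a ρ(g) + ε(g) = 0` and that `G` contains an involution `c` with
`ε(c) = -1`.  Then there is a free module `V` of rank two with an action `ρ'` of `G` such that

* whenever `ρ(g)² - a ρ(g) + ε(g) = 0` on `M`, the characteristic polynomial of `ρ'(g)` is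
  `X² - a X + ε(g)`;
* whenever `ρ(g) ≡ 1` and `ε(g) ≡ 1` modulo an ideal `I`, also `ρ'(g) ≡ 1` modulo `I`.

No extension of scalars is needed: the involution splits off a line on each side.
-/

set_option autoImplicit false

namespace Fermat.Agent.S30.H870

open Polynomial

section aux

variable {R : Type*} [CommRing R] [IsPrincipalIdealRing R]
variable {M : Type*} [AddCommGroup M] [Module R M]

/-- In a saturated submodule `W` of `M`, `I M ∩ W = I W`. -/
theorem mem_smul_top_of_saturated {W : Submodule R M}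
    (hsat : ∀ (r : R) (m : M), r ≠ 0 → r • m ∈ W → m ∈ W) (I : Ideal R) (w : W)
    (hw : (w : M) ∈ I • (⊤ : Submodule R M)) : w ∈ I • (⊤ : Submodule R W) := by
  have hI : I = Ideal.span {Submodule.IsPrincipal.generator I} :=
    (Ideal.span_singleton_generator I).symm
  set r := Submodule.IsPrincipal.generator I with hr
  rw [hI, Submodule.ideal_span_singleton_smul] at hw ⊢
  obtain ⟨b, -, hb⟩ := (Submodule.mem_smul_pointwise_iff_exists _ _ _).1 hw
  by_cases hr0 : r = 0
  · rw [hr0, zero_smul] at hb
    have : w = 0 := Subtype.ext hb.symm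
    rw [this]
    exact Submodule.zero_mem _
  · have hbW : b ∈ W := hsat r b hr0 (by rw [hb]; exact w.2)
    exact (Submodule.mem_smul_pointwise_iff_exists _ _ _).2
      ⟨⟨b, hbW⟩, Submodule.mem_top, Subtype.ext hb⟩

end aux

section rankone

variable {R : Type*} [CommRing R] [IsDomain R]
variable {V : Type*} [AddCommGroup V] [Module R V] [Module.Free R V] [Module.Finite R V]

/-- In rank one every endomorphism is multiplication by its determinant. -/
theorem apply_eq_det_smul (h1 : Module.finrank R V = 1) (f : V →ₗ[R] V) (v : V) :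
    f v = LinearMap.det f • v := by
  classical
  let b := Module.finBasisOfFinrankEq R V h1
  have hsc : f = (b.repr (f (b 0)) 0) • (1 : Module.End R V) := by
    apply b.ext
    intro i
    have hi : i = 0 := Subsingleton.elim _ _
    subst hi
    rw [LinearMap.smul_apply, Module.End.one_apply]
    conv_lhs => rw [← b.sum_repr (f (b 0))]
    rw [Fin.sum_univ_one]
  have hdet : LinearMap.det f = b.repr (f (b 0)) 0 := by
    conv_lhs => rw [hsc]
    rw [LinearMap.det_smul, h1, pow_one, MonoidHom.map_one, mul_one]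
  rw [hdet]
  conv_lhs => rw [hsc]
  rw [LinearMap.smul_apply, Module.End.one_apply]

end rankone

section diag

variable {R : Type*} [CommRing R]

/-- The diagonal endomorphism `diag(u, v)` of `R²`. -/
noncomputable def diagEnd (u v : R) : Module.End R (Fin 2 → R) :=
  Matrix.toLin' (Matrix.diagonal ![u, v])

theorem diagEnd_apply (u v : R) (x : Fin 2 → R) (i : Fin 2) :
    diagEnd u v x i = ![u, v] i * x i := by
  rw [diagEnd, Matrix.toLin'_apply, Matrix.mulVec_diagonal]

theorem diagEnd_one : diagEnd (1 : R) 1 = 1 := by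
  ext x i
  rw [LinearMap.comp_apply, LinearMap.comp_apply, diagEnd_apply]
  fin_cases i <;> simp

theorem diagEnd_mul (u v u' v' : R) : diagEnd (u * u') (v * v') = diagEnd u v * diagEnd u' v' := by
  ext x i
  rw [LinearMap.comp_apply, LinearMap.comp_apply, Module.End.mul_apply, diagEnd_apply,
    diagEnd_apply, diagEnd_apply]
  fin_cases i <;> simp [mul_assoc]

theorem charpoly_diagEnd [Nontrivial R] (u v : R) :
    (diagEnd u v).charpoly = X ^ 2 - C (u + v) * X + C (u * v) := by
  rw [diagEnd, Matrix.charpoly_toLin', Matrix.charpoly_diagonal, Fin.prod_univ_two]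
  simp only [Matrix.cons_val_zero, Matrix.cons_val_one, map_add, map_mul]
  ring

theorem diagEnd_sub_one_mem {u v : R} (I : Ideal R) (hu : u - 1 ∈ I) (hv : v - 1 ∈ I)
    (x : Fin 2 → R) : diagEnd u v x - x ∈ I • (⊤ : Submodule R (Fin 2 → R)) := by
  have : diagEnd u v x - x = (u - 1) • Pi.single 0 (x 0) + (v - 1) • Pi.single 1 (x 1) := by
    ext i
    rw [Pi.sub_apply, diagEnd_apply]
    fin_cases i <;> simp [sub_mul]
  rw [this]
  exact Submodule.add_mem _ (Submodule.smul_mem_smul hu Submodule.mem_top)
    (Submodule.smul_mem_smul hv Submodule.mem_top)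

end diag

section coord

variable {R : Type*} [CommRing R] [IsDomain R]
variable {V : Type*} [AddCommGroup V] [Module R V] [Module.Free R V] [Module.Finite R V]

/-- In rank one, if `c • w ∈ I V` for all `w`, then `c ∈ I`. -/
theorem mem_of_smul_mem_smul_top_rank_one (h1 : Module.finrank R V = 1) (I : Ideal R) (c : R)
    (h : ∀ w : V, c • w ∈ I • (⊤ : Submodule R V)) : c ∈ I := by
  classical
  let b := Module.finBasisOfFinrankEq R V h1
  have key : ∀ x ∈ I • (⊤ : Submodule R V), b.repr x 0 ∈ I := by
    intro x hx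
    refine Submodule.smul_induction_on hx ?_ ?_
    · intro r hr m _
      rw [map_smul, Finsupp.smul_apply, smul_eq_mul]
      exact I.mul_mem_right _ hr
    · intro u v hu hv
      rw [map_add, Finsupp.add_apply]
      exact I.add_mem hu hv
  have := key _ (h (b 0))
  rwa [map_smul, Finsupp.smul_apply, Module.Basis.repr_self, Finsupp.single_eq_same, smul_eq_mul,
    mul_one] at this

end coord

section core

variable {R : Type} [CommRing R] [IsDomain R] [IsPrincipalIdealRing R]
variable {M : Type} [AddCommGroup M] [Module R M] [Module.Free R M] [Module.Finite R M]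
variable {G : Type} [Group G] (ρ : G →* Module.End R M) (ε : G →* Rˣ)

/-- The conclusion of the core theorem. -/
def CoreConclusion : Prop :=
  ∃ (V : Type) (_ : AddCommGroup V) (_ : Module R V) (_ : Module.Free R V)
    (_ : Module.Finite R V) (ρ' : G →* Module.End R V),
    Module.finrank R V = 2 ∧
    (∀ (g : G) (a : R), QRel (ρ g) a (ε g : R) →
      LinearMap.charpoly (ρ' g) = X ^ 2 - C a * X + C (ε g : R)) ∧
    (∀ (g : G) (I : Ideal R), (∀ v, ρ g v - v ∈ I • (⊤ : Submodule R M)) →
      (ε g : R) - 1 ∈ I → ∀ v, ρ' g v - v ∈ I • (⊤ : Submodule R V))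

/-- Rank one case: a stable saturated line gives `ψ ⊕ ε ψ⁻¹`. -/
theorem core_of_line (W : Submodule R M) (hW : ∀ g, W ≤ W.comap (ρ g))
    (hsat : ∀ (r : R) (m : M), r ≠ 0 → r • m ∈ W → m ∈ W)
    (h1 : Module.finrank R W = 1) : CoreConclusion ρ ε := by
  classical
  have hWn : Nontrivial W := Module.nontrivial_of_finrank_pos (R := R) (by rw [h1]; norm_num)
  -- the character
  let ψ : G →* Rˣ := (LinearMap.det.comp (subRep ρ W hW)).toHomUnits
  have hψ : ∀ (g : G) (w : W), ρ g (w : M) = (ψ g : R) • (w : M) := by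
    intro g w
    have := apply_eq_det_smul h1 (subRep ρ W hW g) w
    have h' := congrArg (Subtype.val) this
    simpa [ψ] using h'
  let ρ' : G →* Module.End R (Fin 2 → R) :=
    { toFun := fun g => diagEnd (ψ g : R) ((ε g : R) * ((ψ g)⁻¹ : Rˣ))
      map_one' := by
        simp only [map_one, inv_one, Units.val_one, mul_one]
        exact diagEnd_one
      map_mul' := fun g h => by
        rw [← diagEnd_mul]
        simp only [map_mul, Units.val_mul, mul_inv]
        congr 1
        ring }
  refine ⟨Fin 2 → R, inferInstance, inferInstance, inferInstance, inferInstance, ρ', ?_, ?_, ?_⟩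
  · simp
  · intro g a hq
    -- restrict the relation to `W` and evaluate
    obtain ⟨w, hw⟩ := exists_ne (0 : W)
    have hw' : (w : M) ≠ 0 := fun h => hw (Subtype.ext h)
    have hq' : ρ g * ρ g - a • ρ g + (ε g : R) • (1 : Module.End R M) = 0 := hq
    have h3 := congrArg (fun f : Module.End R M => f (w : M)) hq'
    simp only [LinearMap.add_apply, LinearMap.sub_apply, Module.End.mul_apply,
      LinearMap.smul_apply, Module.End.one_apply, LinearMap.zero_apply, hψ g w, map_smul,
      smul_smul] at h3
    rw [← sub_smul, ← add_smul] at h3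
    have h4 : (ψ g : R) * (ψ g : R) - a * (ψ g : R) + (ε g : R) = 0 :=
      (smul_eq_zero.1 h3).resolve_right hw'
    have ha : a = (ψ g : R) + (ε g : R) * ((ψ g)⁻¹ : Rˣ) := by
      have hu : (ψ g : R) * ((ψ g)⁻¹ : Rˣ) = 1 := Units.mul_inv _
      linear_combination (-((ψ g)⁻¹ : Rˣ) : R) * h4 + ((ψ g : R) - a) * hu
    have hprod : (ψ g : R) * ((ε g : R) * ((ψ g)⁻¹ : Rˣ)) = (ε g : R) := by
      have hu : (ψ g : R) * ((ψ g)⁻¹ : Rˣ) = 1 := Units.mul_inv _
      linear_combination (ε g : R) * hu
    show (diagEnd (ψ g : R) ((ε g : R) * ((ψ g)⁻¹ : Rˣ))).charpoly = _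
    rw [charpoly_diagEnd, hprod, ← ha]
  · intro g I hρ hε v
    show diagEnd (ψ g : R) ((ε g : R) * ((ψ g)⁻¹ : Rˣ)) v - v ∈ _
    have hψI : (ψ g : R) - 1 ∈ I := by
      refine mem_of_smul_mem_smul_top_rank_one h1 I _ (fun w => ?_)
      have hmem : ρ g w - w ∈ W := by
        rw [hψ g w]
        exact W.sub_mem (W.smul_mem _ w.2) w.2
      have h5 : (⟨ρ g w - w, hmem⟩ : W) ∈ I • (⊤ : Submodule R W) :=
        mem_smul_top_of_saturated hsat I _ (hρ w)
      have hval : (⟨ρ g w - w, hmem⟩ : W) = ((ψ g : R) - 1) • w := by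
        apply Subtype.ext
        show ρ g w - w = (((ψ g : R) - 1) • w : W)
        rw [hψ g w, Submodule.coe_smul, sub_smul, one_smul]
      rwa [hval] at h5
    have hv : (ε g : R) * ((ψ g)⁻¹ : Rˣ) - 1 ∈ I := by
      have hu : (ψ g : R) * ((ψ g)⁻¹ : Rˣ) = 1 := Units.mul_inv _
      have : (ε g : R) * ((ψ g)⁻¹ : Rˣ) - 1
          = ((ψ g)⁻¹ : Rˣ) * ((ε g : R) - 1) - ((ψ g)⁻¹ : Rˣ) * ((ψ g : R) - 1) := by
        linear_combination hu
      rw [this]
      exact I.sub_mem (I.mul_mem_left _ hε) (I.mul_mem_left _ hψI)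
    exact diagEnd_sub_one_mem I hψI hv v

/-- Rank two case: a stable saturated plane on which `c` is not a scalar. -/
theorem core_of_plane (hrel : ∀ g, ∃ a : R, QRel (ρ g) a (ε g : R))
    {c : G} (hc : c * c = 1) (hεc : ε c = -1)
    (W : Submodule R M) (hW : ∀ g, W ≤ W.comap (ρ g))
    (hsat : ∀ (r : R) (m : M), r ≠ 0 → r • m ∈ W → m ∈ W)
    (h2 : Module.finrank R W = 2) (hns : ¬ IsScalar (subRep ρ W hW c)) :
    CoreConclusion ρ ε := by
  have hWn : Nontrivial W := Module.nontrivial_of_finrank_pos (R := R) (by rw [h2]; norm_num)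
  refine ⟨W, inferInstance, inferInstance, inferInstance, inferInstance, subRep ρ W hW, h2, ?_, ?_⟩
  · intro g a hq
    obtain ⟨t, ht⟩ := hrel (g * c)
    have hcc : subRep ρ W hW c * subRep ρ W hW c = 1 := by rw [← map_mul, hc, map_one]
    have hf0 : subRep ρ W hW g ≠ 0 := by
      intro h0
      have h1 : subRep ρ W hW g * subRep ρ W hW g⁻¹ = 1 := by
        rw [← map_mul, mul_inv_cancel, map_one]
      rw [h0, zero_mul] at h1
      exact zero_ne_one h1
    have hq' : QRel (subRep ρ W hW g) a (ε g : R) := QRel.restrict (hW g) hq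
    have ht' : QRel (subRep ρ W hW g * subRep ρ W hW c) t (-(ε g : R)) := by
      have : ((ε (g * c) : Rˣ) : R) = -(ε g : R) := by
        rw [map_mul, hεc, Units.val_mul, Units.val_neg, Units.val_one, mul_neg, mul_one]
      rw [← this, ← map_mul]
      exact QRel.restrict (hW (g * c)) ht
    exact charpoly_eq_of_involution h2 hcc hns hf0 hq' ht'
  · intro g I hρ _ v
    exact mem_smul_top_of_saturated hsat I (subRep ρ W hW g v - v) (hρ v)

/-- **The abstract core.** -/
theorem core [Nontrivial M] (h2 : (2 : R) ≠ 0)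
    (hrel : ∀ g, ∃ a : R, QRel (ρ g) a (ε g : R))
    {c : G} (hc : c * c = 1) (hεc : ε c = -1) : CoreConclusion ρ ε := by
  classical
  obtain ⟨W₁, x, y, s, hW0, hWst, hs, hplus, hminus⟩ := exists_structure ρ ε hrel hc hεc
  have hs0 : s ≠ 0 := by
    rintro rfl
    rw [mul_zero] at hs
    exact zero_ne_one hs
  -- the saturation
  have hst : ∀ g, sat W₁ ≤ (sat W₁).comap (ρ g) := fun g => sat_le_comap (ρ g) (hWst g)
  have hsat : ∀ (r : R) (m : M), r ≠ 0 → r • m ∈ sat W₁ → m ∈ sat W₁ :=
    fun r m hr h => sat_saturated hr h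
  obtain ⟨r, hr0, hr⟩ := exists_smul_sat_le W₁
  have hne : Nontrivial (sat W₁) := by
    obtain ⟨w, hw, hw0⟩ := (Submodule.ne_bot_iff W₁).1 hW0
    exact ⟨⟨⟨w, le_sat W₁ hw⟩, 0, fun h => hw0 (congrArg Subtype.val h)⟩⟩
  have hpos : 0 < Module.finrank R (sat W₁) := Module.finrank_pos
  -- upper bound
  have hle2 : Module.finrank R (sat W₁) ≤ 2 := by
    have hmem : ∀ m ∈ sat W₁, (2 * s * r) • m ∈ Submodule.span R (({x, y} : Finset M) : Set M) := by
      intro m hm
      have h1 := hplus _ (hr m hm)
      have h2' := hminus _ (hr m hm)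
      have : (2 * s * r) • m = (ρ c (r • m) + s • r • m) - (ρ c (r • m) - s • r • m) := by
        rw [mul_smul, mul_smul, two_smul]; abel
      rw [this]
      refine Submodule.sub_mem _ ?_ ?_
      · exact Submodule.span_mono (by simp) h1
      · exact Submodule.span_mono (by simp) h2'
    exact (finrank_le_card_of_smul_mem (mul_ne_zero (mul_ne_zero h2 hs0) hr0) _ hmem).trans
      Finset.card_le_two
  -- if `c` is scalar on the saturation, the rank is one
  have hscal : IsScalar (subRep ρ (sat W₁) hst c) → Module.finrank R (sat W₁) ≤ 1 := by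
    rintro ⟨μ, hμ⟩
    have hμ' : ∀ w ∈ sat W₁, ρ c w = μ • w := by
      intro w hw
      have := congrArg (fun f : Module.End R (sat W₁) => ((f ⟨w, hw⟩ : sat W₁) : M)) hμ
      simpa using this
    have hμμ : μ * μ = 1 := by
      obtain ⟨w, hw, hw0⟩ := (Submodule.ne_bot_iff W₁).1 hW0
      have hcc : ρ c (ρ c w) = w := by
        rw [← Module.End.mul_apply, ← map_mul, hc, map_one, Module.End.one_apply]
      rw [hμ' w (le_sat W₁ hw), map_smul, hμ' w (le_sat W₁ hw), smul_smul] at hcc
      have : (μ * μ - 1) • w = 0 := by rw [sub_smul, hcc, one_smul, sub_self]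
      exact sub_eq_zero.1 ((smul_eq_zero.1 this).resolve_right hw0)
    have hcases : μ = s ∨ μ = -s := by
      have : (μ - s) * (μ + s) = 0 := by linear_combination hμμ - hs
      rcases mul_eq_zero.1 this with h | h
      · exact Or.inl (sub_eq_zero.1 h)
      · exact Or.inr (eq_neg_of_add_eq_zero_left h)
    rcases hcases with h | h
    · have hmem : ∀ m ∈ sat W₁, (2 * s * r) • m ∈ Submodule.span R (({x} : Finset M) : Set M) := by
        intro m hm
        have h1 := hplus _ (hr m hm)
        rw [hμ' _ (le_sat W₁ (hr m hm)), h] at h1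
        have : (2 * s * r) • m = s • r • m + s • r • m := by
          rw [mul_smul, mul_smul, two_smul]
        rw [this]
        simpa using h1
      exact (finrank_le_card_of_smul_mem (mul_ne_zero (mul_ne_zero h2 hs0) hr0) _ hmem).trans
        (by simp)
    · have hmem : ∀ m ∈ sat W₁, (-(2 * s * r)) • m
          ∈ Submodule.span R (({y} : Finset M) : Set M) := by
        intro m hm
        have h1 := hminus _ (hr m hm)
        rw [hμ' _ (le_sat W₁ (hr m hm)), h] at h1
        have : (-(2 * s * r)) • m = (-s) • r • m - s • r • m := by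
          rw [neg_smul, mul_smul, mul_smul, two_smul, neg_smul]; abel
        rw [this]
        simpa using h1
      exact (finrank_le_card_of_smul_mem
        (neg_ne_zero.2 (mul_ne_zero (mul_ne_zero h2 hs0) hr0)) _ hmem).trans (by simp)
  -- case distinction on the rank
  have hcase : Module.finrank R (sat W₁) = 1 ∨ Module.finrank R (sat W₁) = 2 := by omega
  rcases hcase with h1 | h2'
  · exact core_of_line ρ ε (sat W₁) hst hsat h1
  · refine core_of_plane ρ ε hrel hc hεc (sat W₁) hst hsat h2' (fun hsc => ?_)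
    have := hscal hsc
    omega

end core

end Fermat.Agent.S30.H870
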