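import Fermat.Agent.S29.H872.Cyclo
import Fermat.Prelude.Def_GaloisRep_ComplexConjugation

/-!
# The `p`-adic cyclotomic character with values in a complete local ring

For a prime `p` and a commutative ring `𝒪` which is complete for an ideal `I ∋ p`, we construct

`adicCyclo p I hp : Gal(ℚ̄/ℚ) →* 𝒪ˣ`

(Mathlib's `cyclotomicCharacter` composed with the canonical ring homomorphism `ℤ_[p] → 𝒪`) and
prove:

* `adicCyclo_frobenius`: the value at a Frobenius element at a place over `ℓ ≠ p` is `ℓ`;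
* `adicCyclo_inertia`: it is trivial on inertia at places over `q ≠ p`;
* `adicCyclo_continuous`: it is congruent to `1` modulo `I ^ n` on `Gal(ℚ̄/ℚ(ζ_{pⁿ}))`;
* `adicCyclo_complexConjugation`: its value at complex conjugation is `-1`.
-/

set_option autoImplicit false

namespace Fermat.Agent.S30.H870

open Fermat.Agent.S55.Bridge Fermat.Agent.S29.H872

/-- `ℚ̄`. -/
abbrev Qb : Type := AlgebraicClosure ℚ

/-- `Gal(ℚ̄/ℚ)`. -/
abbrev GQ : Type := Qb ≃ₐ[ℚ] Qb

section padic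

variable (p : ℕ) [Fact p.Prime]

/-- The `ℤ_p`-valued cyclotomic character of `Gal(ℚ̄/ℚ)`. -/
noncomputable def padicCyclo : GQ →* ℤ_[p]ˣ :=
  (cyclotomicCharacter Qb p).comp (MulSemiringAction.toRingAut GQ Qb)

theorem padicCyclo_toZModPow_eq (σ : GQ) (n : ℕ) (c : ZMod (p ^ n))
    (hc : ∀ t : Qb, t ^ p ^ n = 1 → σ t = t ^ c.val) :
    PadicInt.toZModPow n (padicCyclo p σ : ℤ_[p]) = c := by
  have hp : p.Prime := Fact.out
  haveI : NeZero (p ^ n) := ⟨pow_ne_zero n hp.ne_zero⟩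
  rw [padicCyclo, MonoidHom.comp_apply, cyclotomicCharacter.toZModPow]
  symm
  refine modularCyclotomicCharacter.unique Qb _ _ (fun t ht => ?_)
  have htp : (t : Qb) ^ p ^ n = 1 := by
    have := (mem_rootsOfUnity (p ^ n) t).1 ht
    rw [← Units.val_pow_eq_pow_val, this, Units.val_one]
  exact hc t htp

theorem padicCyclo_eq_natCast (σ : GQ) (k : ℕ)
    (h : ∀ (n : ℕ) (t : Qb), t ^ p ^ n = 1 → σ t = t ^ k) :
    (padicCyclo p σ : ℤ_[p]) = (k : ℤ_[p]) := by
  refine PadicInt.ext_of_toZModPow.1 (fun n => ?_)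
  rw [map_natCast]
  refine padicCyclo_toZModPow_eq p σ n _ (fun t ht => ?_)
  rw [h n t ht, ZMod.val_natCast]
  conv_lhs => rw [← Nat.div_add_mod k (p ^ n), pow_add, pow_mul, ht, one_pow, one_mul]

theorem padicCyclo_eq_one (σ : GQ) (h : ∀ (n : ℕ) (t : Qb), t ^ p ^ n = 1 → σ t = t) :
    padicCyclo p σ = 1 := by
  apply Units.ext
  have := padicCyclo_eq_natCast p σ 1 (fun n t ht => by rw [pow_one]; exact h n t ht)
  rw [this, Nat.cast_one, Units.val_one]

theorem padicCyclo_eq_neg_one (σ : GQ) (h : ∀ (n : ℕ) (t : Qb), t ^ p ^ n = 1 → σ t = t⁻¹) :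
    padicCyclo p σ = -1 := by
  have hp : p.Prime := Fact.out
  apply Units.ext
  rw [Units.val_neg, Units.val_one]
  refine PadicInt.ext_of_toZModPow.1 (fun n => ?_)
  rw [map_neg, map_one]
  refine padicCyclo_toZModPow_eq p σ n _ (fun t ht => ?_)
  rw [h n t ht]
  have ht0 : t ≠ 0 := by
    rintro rfl
    rw [zero_pow (pow_ne_zero n hp.ne_zero)] at ht
    exact zero_ne_one ht
  have hdvd : p ^ n ∣ (-1 : ZMod (p ^ n)).val + 1 := by
    rw [← ZMod.natCast_eq_zero_iff]
    haveI : NeZero (p ^ n) := ⟨pow_ne_zero n hp.ne_zero⟩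
    rw [Nat.cast_add, ZMod.natCast_val, ZMod.cast_id, Nat.cast_one, neg_add_cancel]
  obtain ⟨k, hk⟩ := hdvd
  apply inv_eq_of_mul_eq_one_right
  rw [← pow_succ', hk, pow_mul, ht, one_pow]

end padic

section values

variable (p : ℕ) [Fact p.Prime]

/-- Frobenius elements at `ℓ ≠ p` raise `p`-power roots of unity to the `ℓ`-th power. -/
theorem frob_root_pow_eq {ℓ : ℕ} (hℓ : ℓ.Prime) (hℓp : ℓ ≠ p)
    (A : ValuationSubring Qb) (hA : A.LiesOverPrime ℓ)
    (τ : GQ) (hτ : A.IsFrobeniusAt τ ℓ) {n : ℕ} {t : Qb} (ht : t ^ p ^ n = 1) :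
    τ t = t ^ ℓ := by
  have hp : p.Prime := Fact.out
  by_contra hne
  have hpv : A.valuation (((p ^ n : ℕ) : Qb)) = 1 := by
    rw [Nat.cast_pow, map_pow, val_prime_eq_one (A := A) hA hℓ hp hℓp, one_pow]
  have hp0 : p ^ n ≠ 0 := pow_ne_zero n hp.ne_zero
  have hσt : (τ t) ^ p ^ n = 1 := by rw [← map_pow, ht, map_one]
  have htl : (t ^ ℓ) ^ p ^ n = 1 := by rw [← pow_mul, mul_comm, pow_mul, ht, one_pow]
  have h1 := val_sub_roots_eq_one (A := A) hp0 hpv hσt htl hne
  have hvt : A.valuation t ≤ 1 := by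
    have h : (A.valuation t) ^ p ^ n = 1 := by rw [← map_pow, ht, map_one]
    exact ((pow_eq_one_iff.1 h).resolve_right hp0).le
  have h2 := frob_val_sub_lt_one A hτ t hvt
  rw [h1] at h2
  exact lt_irrefl _ h2

/-- Inertia at `q ≠ p` fixes `p`-power roots of unity. -/
theorem inertia_root_eq {q : ℕ} (hq : q.Prime) (hqp : q ≠ p)
    (A : ValuationSubring Qb) (hA : A.LiesOverPrime q)
    (σ : GQ) (hσ : σ ∈ A.inertiaSubgroupIn ℚ) {n : ℕ} {t : Qb} (ht : t ^ p ^ n = 1) :
    σ t = t := by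
  have hp : p.Prime := Fact.out
  by_contra hne
  have hpv : A.valuation (((p ^ n : ℕ) : Qb)) = 1 := by
    rw [Nat.cast_pow, map_pow, val_prime_eq_one (A := A) hA hq hp hqp, one_pow]
  have hp0 : p ^ n ≠ 0 := pow_ne_zero n hp.ne_zero
  have hσt : (σ t) ^ p ^ n = 1 := by rw [← map_pow, ht, map_one]
  have h1 := val_sub_roots_eq_one (A := A) hp0 hpv hσt ht hne
  have hvt : A.valuation t ≤ 1 := by
    have h : (A.valuation t) ^ p ^ n = 1 := by rw [← map_pow, ht, map_one]
    exact ((pow_eq_one_iff.1 h).resolve_right hp0).le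
  have h2 := inertia_val_sub_lt_one A hσ t hvt
  rw [h1] at h2
  exact lt_irrefl _ h2

/-- Complex conjugation inverts roots of unity. -/
theorem complexConjugation_root {m : ℕ} (hm : m ≠ 0) {t : Qb} (ht : t ^ m = 1) :
    complexConjugation t = t⁻¹ := by
  apply complexEmbedding.toRingHom.injective
  show complexEmbedding (complexConjugation t) = complexEmbedding t⁻¹
  rw [complexEmbedding_complexConjugation, map_inv₀]
  have hz : (complexEmbedding t) ^ m = 1 := by rw [← map_pow, ht, map_one]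
  have hnorm : ‖complexEmbedding t‖ = 1 := by
    have h := congrArg norm hz
    rw [norm_pow, norm_one] at h
    exact (pow_eq_one_iff_of_nonneg (norm_nonneg _) hm).1 h
  exact (Complex.inv_eq_conj hnorm).symm

theorem padicCyclo_frobenius {ℓ : ℕ} (hℓ : ℓ.Prime) (hℓp : ℓ ≠ p)
    (A : ValuationSubring Qb) (hA : A.LiesOverPrime ℓ)
    (τ : GQ) (hτ : A.IsFrobeniusAt τ ℓ) : (padicCyclo p τ : ℤ_[p]) = (ℓ : ℤ_[p]) :=
  padicCyclo_eq_natCast p τ ℓ (fun _ _ ht => frob_root_pow_eq p hℓ hℓp A hA τ hτ ht)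

theorem padicCyclo_inertia {q : ℕ} (hq : q.Prime) (hqp : q ≠ p)
    (A : ValuationSubring Qb) (hA : A.LiesOverPrime q)
    (σ : GQ) (hσ : σ ∈ A.inertiaSubgroupIn ℚ) : padicCyclo p σ = 1 :=
  padicCyclo_eq_one p σ (fun _ _ ht => inertia_root_eq p hq hqp A hA σ hσ ht)

theorem padicCyclo_complexConjugation : padicCyclo p complexConjugation = -1 :=
  padicCyclo_eq_neg_one p _ (fun n _ ht =>
    complexConjugation_root (pow_ne_zero n (Fact.out : p.Prime).ne_zero) ht)

/-- Continuity of the `p`-adic cyclotomic character: it is `≡ 1` modulo `pⁿ` on the absolute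
Galois group of the finite extension `ℚ(ζ_{pⁿ})`. -/
theorem padicCyclo_continuous (n : ℕ) :
    ∃ L : IntermediateField ℚ Qb, FiniteDimensional ℚ L ∧
      ∀ σ : GQ, (∀ x ∈ L, σ x = x) → PadicInt.toZModPow n (padicCyclo p σ : ℤ_[p]) = 1 := by
  have hp : p.Prime := Fact.out
  haveI : NeZero (p ^ n) := ⟨pow_ne_zero n hp.ne_zero⟩
  obtain ⟨ζ, hζ⟩ := HasEnoughRootsOfUnity.exists_primitiveRoot Qb (p ^ n)
  have hint : IsIntegral ℚ ζ := (AlgebraicClosure.isAlgebraic ℚ).isIntegral.isIntegral ζ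
  refine ⟨IntermediateField.adjoin ℚ {ζ}, IntermediateField.adjoin.finiteDimensional hint,
    fun σ hσ => ?_⟩
  have hζfix : σ ζ = ζ := hσ ζ (IntermediateField.mem_adjoin_simple_self ℚ ζ)
  rcases Nat.eq_zero_or_pos n with rfl | hn
  · haveI : Subsingleton (ZMod (p ^ 0)) := by
      rw [pow_zero]
      infer_instance
    exact Subsingleton.elim _ _
  · haveI : Fact (1 < p ^ n) := ⟨Nat.one_lt_pow hn.ne' hp.one_lt⟩
    refine padicCyclo_toZModPow_eq p σ n 1 (fun t ht => ?_)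
    rw [ZMod.val_one, pow_one]
    obtain ⟨i, -, rfl⟩ := hζ.eq_pow_of_pow_eq_one ht
    rw [map_pow, hζfix]

end values

section phi

variable (p : ℕ) [Fact p.Prime]
variable {O : Type*} [CommRing O] (I : Ideal O) (hp : (p : O) ∈ I)

/-- The canonical map `ℤ/pⁿ → 𝒪/Iⁿ` when `p ∈ I`. -/
noncomputable def zmodToQuot (n : ℕ) : ZMod (p ^ n) →+* O ⧸ I ^ n :=
  (Ideal.Quotient.lift (Ideal.span {((p ^ n : ℕ) : ℤ)}) (Int.castRingHom (O ⧸ I ^ n)) (by
    intro a ha
    obtain ⟨b, rfl⟩ := Ideal.mem_span_singleton'.1 ha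
    have h0 : ((p ^ n : ℕ) : O ⧸ I ^ n) = 0 := by
      rw [← map_natCast (Ideal.Quotient.mk (I ^ n)), Ideal.Quotient.eq_zero_iff_mem,
        Nat.cast_pow]
      exact Ideal.pow_mem_pow hp n
    rw [map_mul, map_natCast, h0, mul_zero])).comp
    (Int.quotientSpanNatEquivZMod (p ^ n)).symm.toRingHom

theorem zmodToQuot_compat {m n : ℕ} (hle : m ≤ n) :
    (Ideal.Quotient.factorPow I hle).comp ((zmodToQuot p I hp n).comp (PadicInt.toZModPow n))
      = (zmodToQuot p I hp m).comp (PadicInt.toZModPow m) := by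
  rw [← RingHom.comp_assoc, ← PadicInt.zmod_cast_comp_toZModPow m n hle,
    ← RingHom.comp_assoc]
  congr 1
  exact RingHom.ext_zmod _ _

variable [IsAdicComplete I O]

/-- The canonical ring homomorphism `ℤ_[p] → 𝒪` for an `I`-adically complete ring with `p ∈ I`. -/
noncomputable def padicToComplete : ℤ_[p] →+* O :=
  IsAdicComplete.liftRingHom I (fun n => (zmodToQuot p I hp n).comp (PadicInt.toZModPow n))
    (fun {_ _} hle => zmodToQuot_compat p I hp hle)

theorem mk_padicToComplete (n : ℕ) (z : ℤ_[p]) :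
    Ideal.Quotient.mk (I ^ n) (padicToComplete p I hp z)
      = zmodToQuot p I hp n (PadicInt.toZModPow n z) :=
  IsAdicComplete.mk_liftRingHom I (fun n => (zmodToQuot p I hp n).comp (PadicInt.toZModPow n))
    (fun {_ _} hle => zmodToQuot_compat p I hp hle) n z

theorem padicToComplete_sub_one_mem (n : ℕ) (z : ℤ_[p]) (hz : PadicInt.toZModPow n z = 1) :
    padicToComplete p I hp z - 1 ∈ I ^ n := by
  rw [← Ideal.Quotient.eq_zero_iff_mem, map_sub, mk_padicToComplete, hz, map_one, map_one,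
    sub_self]

/-- **The `p`-adic cyclotomic character with values in `𝒪ˣ`.** -/
noncomputable def adicCyclo : GQ →* Oˣ :=
  (Units.map (padicToComplete p I hp : ℤ_[p] →* O)).comp (padicCyclo p)

theorem adicCyclo_val (σ : GQ) :
    ((adicCyclo p I hp σ : Oˣ) : O) = padicToComplete p I hp (padicCyclo p σ : ℤ_[p]) := rfl

theorem adicCyclo_frobenius {ℓ : ℕ} (hℓ : ℓ.Prime) (hℓp : ℓ ≠ p)
    (A : ValuationSubring Qb) (hA : A.LiesOverPrime ℓ)
    (τ : GQ) (hτ : A.IsFrobeniusAt τ ℓ) : ((adicCyclo p I hp τ : Oˣ) : O) = (ℓ : O) := by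
  rw [adicCyclo_val, padicCyclo_frobenius p hℓ hℓp A hA τ hτ, map_natCast]

theorem adicCyclo_inertia {q : ℕ} (hq : q.Prime) (hqp : q ≠ p)
    (A : ValuationSubring Qb) (hA : A.LiesOverPrime q)
    (σ : GQ) (hσ : σ ∈ A.inertiaSubgroupIn ℚ) : adicCyclo p I hp σ = 1 := by
  rw [adicCyclo, MonoidHom.comp_apply, padicCyclo_inertia p hq hqp A hA σ hσ, map_one]

theorem adicCyclo_complexConjugation : adicCyclo p I hp complexConjugation = -1 := by
  apply Units.ext
  rw [adicCyclo_val, padicCyclo_complexConjugation, Units.val_neg, Units.val_one, map_neg,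
    map_one, Units.val_neg, Units.val_one]

theorem adicCyclo_continuous (n : ℕ) :
    ∃ L : IntermediateField ℚ Qb, FiniteDimensional ℚ L ∧
      ∀ σ : GQ, (∀ x ∈ L, σ x = x) → ((adicCyclo p I hp σ : Oˣ) : O) - 1 ∈ I ^ n := by
  obtain ⟨L, hL, h⟩ := padicCyclo_continuous p n
  exact ⟨L, hL, fun σ hσ => padicToComplete_sub_one_mem p I hp n _ (h σ hσ)⟩

end phi

end Fermat.Agent.S30.H870
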