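import Fermat.Agent.S30.H870.Glue

/-!
# S30 from an adic eigenmodule and Frobenius density (CHEB Tier 1)

`result_of_eigenmodule`: the frozen statement S30 follows from

* `Fermat.Agent.Lib.Cheb.Spec.FrobeniusDivisionStatement`, and
* `AdicEigenmoduleStatement`: for every eigensystem `χ : 𝕋 → 𝒪'` there is a nonzero finite free
  `𝒪'`-module with an adically continuous action of `Gal(ℚ̄/ℚ)`, unramified outside `N p`, on
  which every Frobenius element at `ℓ ∉ S` satisfies `σ² - χ(T_ℓ) σ + ℓ = 0`.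

The output representation has coefficients in `𝒪'' := 𝒪'` itself.
-/

set_option autoImplicit false

namespace Fermat.Agent.S30.H870

open Polynomial CuspForm

/-- The adic eigenmodule attached to an eigensystem `χ`. -/
def HasAdicEigenmodule (p : ℕ) (N : ℕ) [NeZero N] (S : Finset ℕ)
    (𝒪' : Type) [CommRing 𝒪'] [IsLocalRing 𝒪']
    (χ : CuspForm.heckeAlgebra N 2 (↑S : Set ℕ) →+* 𝒪') : Prop :=
  ∃ (M : Type) (_ : AddCommGroup M) (_ : Module 𝒪' M) (_ : Module.Free 𝒪' M)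
    (_ : Module.Finite 𝒪' M) (_ : Nontrivial M)
    (ρ : (AlgebraicClosure ℚ ≃ₐ[ℚ] AlgebraicClosure ℚ) →* Module.End 𝒪' M),
    GaloisActionIsAdicContinuous 𝒪' ρ ∧
    (∀ q : ℕ, q.Prime → ¬ q ∣ N → q ≠ p →
      ∀ P : ValuationSubring (AlgebraicClosure ℚ), P.LiesOverPrime q →
        ∀ σ ∈ P.inertiaSubgroupIn ℚ, ρ σ = 1) ∧
    (∀ (ℓ : ℕ) (hℓ : ℓ.Prime) (hℓN : ¬ ℓ ∣ N) (hℓS : ℓ ∉ (↑S : Set ℕ)),
      ∀ A : ValuationSubring (AlgebraicClosure ℚ), A.LiesOverPrime ℓ →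
        ∀ σ : AlgebraicClosure ℚ ≃ₐ[ℚ] AlgebraicClosure ℚ, A.IsFrobeniusAt σ ℓ →
          ρ σ * ρ σ - χ (CuspForm.heckeAlgebra.T hℓ hℓN hℓS) • ρ σ
            + (ℓ : 𝒪') • (1 : Module.End 𝒪' M) = 0)

/-- The input of the top glue, for all data of the frozen statement S30. -/
def AdicEigenmoduleStatement : Prop :=
  ∀ (p : ℕ) [Fact p.Prime] (N : ℕ) [NeZero N] (S : Finset ℕ)
    (_hpS : p ∈ S) (_hNS : ∀ q : ℕ, q.Prime → q ∣ N → q ∈ S)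
    (𝒪' : Type) [CommRing 𝒪'] [IsDomain 𝒪'] [IsDiscreteValuationRing 𝒪']
    [IsAdicComplete (IsLocalRing.maximalIdeal 𝒪') 𝒪'] [Finite (IsLocalRing.ResidueField 𝒪')]
    [CharZero 𝒪'] (_hp𝒪' : (p : 𝒪') ∈ IsLocalRing.maximalIdeal 𝒪')
    (χ : CuspForm.heckeAlgebra N 2 (↑S : Set ℕ) →+* 𝒪'), HasAdicEigenmodule p N S 𝒪' χ

/-- **S30 for one eigensystem**, from its adic eigenmodule and Frobenius density. -/
theorem exists_of_hasAdicEigenmodule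
    (hcheb : Fermat.Agent.Lib.Cheb.Spec.FrobeniusDivisionStatement)
    (p : ℕ) [Fact p.Prime] (N : ℕ) [NeZero N] (S : Finset ℕ)
    (hpS : p ∈ S) (hNS : ∀ q : ℕ, q.Prime → q ∣ N → q ∈ S)
    (𝒪' : Type) [CommRing 𝒪'] [IsDomain 𝒪'] [IsDiscreteValuationRing 𝒪']
    [IsAdicComplete (IsLocalRing.maximalIdeal 𝒪') 𝒪'] [Finite (IsLocalRing.ResidueField 𝒪')]
    [CharZero 𝒪'] (hp𝒪' : (p : 𝒪') ∈ IsLocalRing.maximalIdeal 𝒪')
    (χ : CuspForm.heckeAlgebra N 2 (↑S : Set ℕ) →+* 𝒪')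
    (hmod : HasAdicEigenmodule p N S 𝒪' χ) :
    ∃ (𝒪'' : Type) (_ : CommRing 𝒪'') (_ : IsDomain 𝒪'') (_ : IsDiscreteValuationRing 𝒪'')
      (_ : IsAdicComplete (IsLocalRing.maximalIdeal 𝒪'') 𝒪'')
      (_ : Finite (IsLocalRing.ResidueField 𝒪'')) (_ : CharZero 𝒪'')
      (_ : Algebra 𝒪' 𝒪'') (_ : Module.Finite 𝒪' 𝒪'') (_ : IsLocalHom (algebraMap 𝒪' 𝒪'')),
    Function.Injective (algebraMap 𝒪' 𝒪'') ∧
    ∃ ρ : GaloisRepAdic 𝒪'',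
      (∀ (ℓ : ℕ) (hℓ : ℓ.Prime) (hℓN : ¬ ℓ ∣ N) (hℓS : ℓ ∉ (↑S : Set ℕ)),
        ∀ A : ValuationSubring (AlgebraicClosure ℚ), A.LiesOverPrime ℓ →
          ∀ σ : AlgebraicClosure ℚ ≃ₐ[ℚ] AlgebraicClosure ℚ, A.IsFrobeniusAt σ ℓ →
            LinearMap.charpoly (ρ.ρ σ) =
              X ^ 2 - C (algebraMap 𝒪' 𝒪'' (χ (CuspForm.heckeAlgebra.T hℓ hℓN hℓS))) * X
                + C ((ℓ : 𝒪''))) ∧
      (∀ q : ℕ, q.Prime → ¬ q ∣ N → q ≠ p → ρ.IsUnramifiedAt q) := by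
  obtain ⟨M, i1, i2, i3, i4, i5, ρ, hcont, hunr, hfrob⟩ := hmod
  obtain ⟨r, hr1, hr2⟩ := exists_galoisRepAdic hcheb p N S hpS 𝒪' hp𝒪' M ρ hcont hunr
    (fun ℓ hℓ hℓS A hA σ hσ =>
      ⟨χ (CuspForm.heckeAlgebra.T hℓ (fun h => hℓS (hNS ℓ hℓ h))
        (fun h => hℓS (Finset.mem_coe.1 h))),
        hfrob ℓ hℓ (fun h => hℓS (hNS ℓ hℓ h)) (fun h => hℓS (Finset.mem_coe.1 h)) A hA σ hσ⟩)
  refine ⟨𝒪', inferInstance, inferInstance, inferInstance, inferInstance, inferInstance,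
    inferInstance, Algebra.id 𝒪', inferInstance, inferInstance, Function.injective_id, r, ?_, hr2⟩
  intro ℓ hℓ hℓN hℓS A hA σ hσ
  exact hr1 ℓ hℓ (fun h => hℓS (Finset.mem_coe.2 h)) A hA σ hσ _ (hfrob ℓ hℓ hℓN hℓS A hA σ hσ)

/-- **The frozen statement S30**, from Frobenius density and the adic eigenmodule statement. -/
theorem result_of_eigenmodule
    (hcheb : Fermat.Agent.Lib.Cheb.Spec.FrobeniusDivisionStatement)
    (hmod : AdicEigenmoduleStatement) :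
    ∀ (p : ℕ) [Fact p.Prime] (N : ℕ) [NeZero N] (S : Finset ℕ)
      (_hpS : p ∈ S) (_hNS : ∀ q : ℕ, q.Prime → q ∣ N → q ∈ S)
      (𝒪' : Type) [CommRing 𝒪'] [IsDomain 𝒪'] [IsDiscreteValuationRing 𝒪']
      [IsAdicComplete (IsLocalRing.maximalIdeal 𝒪') 𝒪'] [Finite (IsLocalRing.ResidueField 𝒪')]
      [CharZero 𝒪'] (_hp𝒪' : (p : 𝒪') ∈ IsLocalRing.maximalIdeal 𝒪')
      (χ : CuspForm.heckeAlgebra N 2 (↑S : Set ℕ) →+* 𝒪'),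
      ∃ (𝒪'' : Type) (_ : CommRing 𝒪'') (_ : IsDomain 𝒪'') (_ : IsDiscreteValuationRing 𝒪'')
        (_ : IsAdicComplete (IsLocalRing.maximalIdeal 𝒪'') 𝒪'')
        (_ : Finite (IsLocalRing.ResidueField 𝒪'')) (_ : CharZero 𝒪'')
        (_ : Algebra 𝒪' 𝒪'') (_ : Module.Finite 𝒪' 𝒪'') (_ : IsLocalHom (algebraMap 𝒪' 𝒪'')),
      Function.Injective (algebraMap 𝒪' 𝒪'') ∧
      ∃ ρ : GaloisRepAdic 𝒪'',
        (∀ (ℓ : ℕ) (hℓ : ℓ.Prime) (hℓN : ¬ ℓ ∣ N) (hℓS : ℓ ∉ (↑S : Set ℕ)),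
          ∀ A : ValuationSubring (AlgebraicClosure ℚ), A.LiesOverPrime ℓ →
            ∀ σ : AlgebraicClosure ℚ ≃ₐ[ℚ] AlgebraicClosure ℚ, A.IsFrobeniusAt σ ℓ →
              LinearMap.charpoly (ρ.ρ σ) =
                X ^ 2 - C (algebraMap 𝒪' 𝒪'' (χ (CuspForm.heckeAlgebra.T hℓ hℓN hℓS))) * X
                  + C ((ℓ : 𝒪''))) ∧
        (∀ q : ℕ, q.Prime → ¬ q ∣ N → q ≠ p → ρ.IsUnramifiedAt q) := by
  intro p _ N _ S hpS hNS 𝒪' _ _ _ _ _ _ hp𝒪' χ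
  exact exists_of_hasAdicEigenmodule hcheb p N S hpS hNS 𝒪' hp𝒪' χ
    (hmod p N S hpS hNS 𝒪' hp𝒪' χ)

end Fermat.Agent.S30.H870
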