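import Fermat.Agent.S30.H870.Core
import Fermat.Agent.S30.H870.Approx
import Fermat.Agent.S30.H870.Cyclo
import Fermat.Agent.Lib.Cheb.Spec
import Fermat.Prelude.Def_CuspForm_HeckeGaloisRepDatum

/-!
# S30 top glue: adic eigenmodule + Frobenius density ⇒ the frozen conclusion of S30

Input:

* `Fermat.Agent.Lib.Cheb.Spec.FrobeniusDivisionStatement` (CHEB Tier 1), and
* an *adic eigenmodule*: a nonzero finite free `𝒪`-module `M` with an adically continuous action
  of `Gal(ℚ̄/ℚ)`, unramified outside `N p`, on which every Frobenius element at `ℓ ∉ S` satisfies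
  a quadratic relation `σ² - a σ + ℓ = 0`.

Output: a `GaloisRepAdic 𝒪` (rank two over the *same* ring `𝒪`), unramified outside `N p`, with
`charpoly ρ(σ) = X² - a X + ℓ` for every Frobenius element `σ` at `ℓ ∉ S` and every `a` such that
`σ² - a σ + ℓ = 0` on `M`.
-/

set_option autoImplicit false

namespace Fermat.Agent.S30.H870

open Polynomial

section small

variable {O : Type*} [CommRing O] {M : Type*} [AddCommGroup M] [Module O M]

/-- `X ≡ 0` modulo `J`. -/
def Small (J : Ideal O) (X : Module.End O M) : Prop :=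
  ∀ w, X w ∈ J • (⊤ : Submodule O M)

theorem Small.add {J : Ideal O} {X Y : Module.End O M} (hX : Small J X) (hY : Small J Y) :
    Small J (X + Y) := fun w => Submodule.add_mem _ (hX w) (hY w)

theorem Small.sub {J : Ideal O} {X Y : Module.End O M} (hX : Small J X) (hY : Small J Y) :
    Small J (X - Y) := fun w => Submodule.sub_mem _ (hX w) (hY w)

theorem Small.mul_left {J : Ideal O} {X : Module.End O M} (hX : Small J X)
    (A : Module.End O M) : Small J (A * X) := fun w => map_mem_smul_top J A (hX w)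

theorem Small.mul_right {J : Ideal O} {X : Module.End O M} (hX : Small J X)
    (B : Module.End O M) : Small J (X * B) := fun w => hX (B w)

theorem Small.smul {J : Ideal O} {X : Module.End O M} (hX : Small J X) (v : O) :
    Small J (v • X) := fun w => Submodule.smul_mem _ v (hX w)

theorem small_smul_one {J : Ideal O} {x : O} (hx : x ∈ J) :
    Small J (x • (1 : Module.End O M)) :=
  fun _ => Submodule.smul_mem_smul hx Submodule.mem_top

/-- Perturbation of a quadratic relation. -/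
theorem small_of_qrel_mul {J : Ideal O} {T H : Module.End O M} {v d e : O}
    (hH : Small J (H - 1)) (he : e - 1 ∈ J) (hrel : QRel (T * H) v (d * e)) :
    Small J (T * T - v • T + d • (1 : Module.End O M)) := by
  have hrel' : T * H * (T * H) - v • (T * H) + (d * e) • (1 : Module.End O M) = 0 := hrel
  have key : T * T - v • T + d • (1 : Module.End O M)
      = -(T * ((H - 1) * T + H * T * (H - 1))) + v • (T * (H - 1))
        - d • ((e - 1) • (1 : Module.End O M)) := by
    have e1 : d • ((e - 1) • (1 : Module.End O M))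
        = (d * e) • (1 : Module.End O M) - d • (1 : Module.End O M) := by
      rw [smul_smul, mul_sub, mul_one, sub_smul]
    have e2 : T * ((H - 1) * T + H * T * (H - 1)) = T * H * (T * H) - T * T := by
      simp only [mul_add, mul_sub, sub_mul, mul_one, one_mul, mul_assoc]
      abel
    have e3 : v • (T * (H - 1)) = v • (T * H) - v • T := by
      rw [mul_sub, mul_one, smul_sub]
    rw [e1, e2, e3]
    rw [← sub_eq_zero, ← hrel']
    abel
  rw [key]
  refine Small.sub (Small.add ?_ ((hH.mul_left T).smul v)) ((small_smul_one he).smul d)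
  intro w
  have h1 : Small J (T * ((H - 1) * T + H * T * (H - 1))) :=
    ((hH.mul_right T).add (hH.mul_left (H * T))).mul_left T
  have := h1 w
  rw [LinearMap.neg_apply]
  exact Submodule.neg_mem _ this

end small

section glue

/-- **S30 top glue, abstract form.** -/
theorem exists_galoisRepAdic
    (hcheb : Fermat.Agent.Lib.Cheb.Spec.FrobeniusDivisionStatement)
    (p : ℕ) [Fact p.Prime] (N : ℕ) (S : Finset ℕ) (hpS : p ∈ S)
    (O : Type) [CommRing O] [IsDomain O] [IsDiscreteValuationRing O]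
    [IsAdicComplete (IsLocalRing.maximalIdeal O) O] [CharZero O]
    (hpO : (p : O) ∈ IsLocalRing.maximalIdeal O)
    (M : Type) [AddCommGroup M] [Module O M] [Module.Free O M] [Module.Finite O M] [Nontrivial M]
    (ρ : (AlgebraicClosure ℚ ≃ₐ[ℚ] AlgebraicClosure ℚ) →* Module.End O M)
    (hcont : GaloisActionIsAdicContinuous O ρ)
    (hunr : ∀ q : ℕ, q.Prime → ¬ q ∣ N → q ≠ p →
      ∀ P : ValuationSubring (AlgebraicClosure ℚ), P.LiesOverPrime q →
        ∀ σ ∈ P.inertiaSubgroupIn ℚ, ρ σ = 1)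
    (hfrob : ∀ ℓ : ℕ, ℓ.Prime → ℓ ∉ S →
      ∀ A : ValuationSubring (AlgebraicClosure ℚ), A.LiesOverPrime ℓ →
        ∀ σ : AlgebraicClosure ℚ ≃ₐ[ℚ] AlgebraicClosure ℚ, A.IsFrobeniusAt σ ℓ →
          ∃ a : O, QRel (ρ σ) a (ℓ : O)) :
    ∃ r : GaloisRepAdic O,
      (∀ ℓ : ℕ, ℓ.Prime → ℓ ∉ S →
        ∀ A : ValuationSubring (AlgebraicClosure ℚ), A.LiesOverPrime ℓ →
          ∀ σ : AlgebraicClosure ℚ ≃ₐ[ℚ] AlgebraicClosure ℚ, A.IsFrobeniusAt σ ℓ →
            ∀ a : O, QRel (ρ σ) a (ℓ : O) →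
              LinearMap.charpoly (r.ρ σ) = X ^ 2 - C a * X + C ((ℓ : O))) ∧
      (∀ q : ℕ, q.Prime → ¬ q ∣ N → q ≠ p → r.IsUnramifiedAt q) := by
  classical
  set ε : GQ →* Oˣ := adicCyclo p (IsLocalRing.maximalIdeal O) hpO with hε
  -- joint continuity
  have hjoint : ∀ n : ℕ, ∃ L : IntermediateField ℚ Qb, FiniteDimensional ℚ L ∧
      ∀ σ : GQ, (∀ x ∈ L, σ x = x) →
        Small (IsLocalRing.maximalIdeal O ^ n) (ρ σ - 1) ∧
          ((ε σ : Oˣ) : O) - 1 ∈ IsLocalRing.maximalIdeal O ^ n := by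
    intro n
    obtain ⟨L₁, hL₁, h₁⟩ := hcont n
    obtain ⟨L₂, hL₂, h₂⟩ := adicCyclo_continuous p (IsLocalRing.maximalIdeal O) hpO n
    refine ⟨L₁ ⊔ L₂, IntermediateField.finiteDimensional_sup L₁ L₂, fun σ hσ => ⟨?_, ?_⟩⟩
    · intro w
      exact h₁ σ (fun x hx => hσ x ((le_sup_left : L₁ ≤ L₁ ⊔ L₂) hx)) w
    · exact h₂ σ (fun x hx => hσ x ((le_sup_right : L₂ ≤ L₁ ⊔ L₂) hx))
  -- every element satisfies a quadratic relation
  have hrel : ∀ g : GQ, ∃ a : O, QRel (ρ g) a ((ε g : Oˣ) : O) := by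
    intro g
    refine exists_qrel_of_approx (ρ g) _ (fun n => ?_)
    obtain ⟨E, hE, hEs⟩ := hjoint n
    obtain ⟨ℓ, A, τ, k, j, hℓ, hℓS, hA, hτ, -, -, hτj⟩ := hcheb E hE g S
    have hℓp : ℓ ≠ p := fun h => hℓS (h ▸ hpS)
    obtain ⟨a₀, ha₀⟩ := hfrob ℓ hℓ hℓS A hA τ hτ
    obtain ⟨v, hv⟩ := ha₀.pow j
    -- `h = g⁻¹ τ^j` fixes `E`
    have hfix : ∀ x ∈ E, (g⁻¹ * τ ^ j) x = x := by
      intro x hx
      rw [AlgEquiv.mul_apply, hτj x hx]
      exact g.symm_apply_apply x
    obtain ⟨hs1, hs2⟩ := hEs _ hfix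
    have hprod : g * (g⁻¹ * τ ^ j) = τ ^ j := by group
    have hv' : QRel (ρ g * ρ (g⁻¹ * τ ^ j)) v
        (((ε g : Oˣ) : O) * ((ε (g⁻¹ * τ ^ j) : Oˣ) : O)) := by
      rw [← map_mul, ← Units.val_mul, ← map_mul, hprod, map_pow, map_pow, Units.val_pow_eq_pow_val,
        hε, adicCyclo_frobenius p _ hpO hℓ hℓp A hA τ hτ]
      exact hv
    exact ⟨v, small_of_qrel_mul hs1 hs2 hv'⟩
  -- the core
  have h2 : (2 : O) ≠ 0 := two_ne_zero
  obtain ⟨V, iV1, iV2, iV3, iV4, ρ', hrk, hchar, hcong⟩ :=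
    core ρ ε h2 hrel complexConjugation_mul_self
      (adicCyclo_complexConjugation p (IsLocalRing.maximalIdeal O) hpO)
  refine ⟨{ V := V, finrank_eq := hrk, ρ := ρ', isAdicContinuous := ?_ }, ?_, ?_⟩
  · intro n
    obtain ⟨E, hE, hEs⟩ := hjoint n
    refine ⟨E, hE, fun σ hσ v => ?_⟩
    obtain ⟨hs1, hs2⟩ := hEs σ hσ
    exact hcong σ _ (fun w => by simpa using hs1 w) hs2 v
  · intro ℓ hℓ hℓS A hA σ hσ a ha
    have hℓp : ℓ ≠ p := fun h => hℓS (h ▸ hpS)
    have hεσ : ((ε σ : Oˣ) : O) = (ℓ : O) :=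
      adicCyclo_frobenius p _ hpO hℓ hℓp A hA σ hσ
    have := hchar σ a (by rw [hεσ]; exact ha)
    rw [hεσ] at this
    exact this
  · intro q hq hqN hqp P hP σ hσ
    have h1 : ρ σ = 1 := hunr q hq hqN hqp P hP σ hσ
    have h2' : ε σ = 1 := adicCyclo_inertia p _ hpO hq hqp P hP σ hσ
    have := hcong σ ⊥ (fun w => by
      rw [h1, Module.End.one_apply, sub_self]; exact Submodule.zero_mem _)
      (by rw [h2', Units.val_one, sub_self]; exact Submodule.zero_mem _)
    show ρ' σ = 1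
    ext v
    have hv := this v
    rw [Submodule.bot_smul, Submodule.mem_bot, sub_eq_zero] at hv
    rw [hv, Module.End.one_apply]

end glue

end Fermat.Agent.S30.H870
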