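import Mathlib

/-!
# Quadratic relations pass to powers (any commutative base ring)

If `T * T - a • T + d • 1 = 0` in an algebra `B` over a commutative ring `R`, then every power
`T ^ j` satisfies `T ^ j * T ^ j - v • T ^ j + d ^ j • 1 = 0` for some `v : R`
(`v` is the Lucas polynomial `V_j(a, d)`).  No roots are extracted, so this works over
`𝒪 / 𝔪 ^ n` as well as over `𝒪`.
-/

set_option autoImplicit false

namespace Fermat.Agent.S30.H870

variable {R : Type*} [CommRing R] {B : Type*} [Ring B] [Algebra R B]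

/-- The quadratic relation `T² - a T + d = 0`. -/
def QRel (T : B) (a d : R) : Prop := T * T - a • T + d • (1 : B) = 0

theorem QRel.mul_conj {T : B} {a d : R} (h : QRel T a d) :
    T * (a • (1 : B) - T) = d • (1 : B) := by
  have h' : T * T - a • T + d • (1 : B) = 0 := h
  rw [mul_sub, mul_smul_comm, mul_one]
  rw [← sub_eq_zero]
  rw [← neg_eq_zero, ← h']
  abel

theorem commute_conj (T : B) (a : R) : Commute T (a • (1 : B) - T) := by
  rw [Algebra.smul_def, mul_one]
  exact (Algebra.commute_algebraMap_right a T).sub_right (Commute.refl T)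

theorem QRel.exists_pow_add_pow {T : B} {a d : R} (h : QRel T a d) (j : ℕ) :
    ∃ v : R, T ^ j + (a • (1 : B) - T) ^ j = v • (1 : B) := by
  have hc := commute_conj T a
  have hm := h.mul_conj
  suffices H : ∀ j : ℕ, (∃ v : R, T ^ j + (a • (1 : B) - T) ^ j = v • (1 : B)) ∧
      (∃ v : R, T ^ (j + 1) + (a • (1 : B) - T) ^ (j + 1) = v • (1 : B)) from (H j).1
  intro j
  induction j with
  | zero =>
    refine ⟨⟨2, ?_⟩, ⟨a, ?_⟩⟩
    · rw [pow_zero, pow_zero, two_smul]
    · rw [zero_add, pow_one, pow_one]; abel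
  | succ j ih =>
    obtain ⟨⟨v, hv⟩, ⟨w, hw⟩⟩ := ih
    refine ⟨⟨w, hw⟩, ⟨a * w - d * v, ?_⟩⟩
    set T' := a • (1 : B) - T with hT'
    have hsum : T + T' = a • (1 : B) := by rw [hT']; abel
    have key : T ^ (j + 1 + 1) + T' ^ (j + 1 + 1)
        = (T + T') * (T ^ (j + 1) + T' ^ (j + 1)) - (T * T') * (T ^ j + T' ^ j) := by
      have e1 : T' * T ^ (j + 1) = T * T' * T ^ j := by
        rw [pow_succ', ← mul_assoc, hc.eq]
      have e2 : T * T' ^ (j + 1) = T * T' * T' ^ j := by
        rw [pow_succ', ← mul_assoc]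
      rw [add_mul, mul_add, mul_add, mul_add, e1, e2, ← pow_succ', ← pow_succ']
      abel
    rw [key, hsum, hm, hv, hw, smul_mul_assoc, one_mul, smul_mul_assoc, one_mul, smul_smul,
      smul_smul, sub_smul]

/-- **Quadratic relations pass to powers.** -/
theorem QRel.pow {T : B} {a d : R} (h : QRel T a d) (j : ℕ) :
    ∃ v : R, QRel (T ^ j) v (d ^ j) := by
  obtain ⟨v, hv⟩ := h.exists_pow_add_pow j
  refine ⟨v, ?_⟩
  have hc := commute_conj T a
  have hm := h.mul_conj
  have hprod : T ^ j * (a • (1 : B) - T) ^ j = d ^ j • (1 : B) := by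
    rw [← hc.mul_pow, hm, smul_pow, one_pow]
  show T ^ j * T ^ j - v • T ^ j + d ^ j • (1 : B) = 0
  have : v • T ^ j = (T ^ j + (a • (1 : B) - T) ^ j) * T ^ j := by
    rw [hv, smul_mul_assoc, one_mul]
  rw [this, ← hprod, add_mul, (hc.pow_pow j j).eq]
  abel

end Fermat.Agent.S30.H870
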