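import Fermat.Agent.S30.H870.Lucas

/-!
# Quadratic relations: the involution trick and rank-two characteristic polynomials

* `conj_swap`: if `A` is invertible, `C * C = 1`, `A² - a A + d = 0` and
  `(A C)² - t (A C) - d = 0`, then `C A = t + a C - A C`.
* In a free module of rank two over a domain, an endomorphism satisfying
  `f² - a f + e = 0` either has characteristic polynomial `X² - a X + e` or is a scalar.
-/

set_option autoImplicit false

namespace Fermat.Agent.S30.H870

open Polynomial

section swap

variable {R : Type*} [CommRing R] {B : Type*} [Ring B] [Algebra R B]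

theorem QRel.sq_eq {T : B} {a d : R} (h : QRel T a d) : T * T = a • T - d • (1 : B) := by
  have h' : T * T - a • T + d • (1 : B) = 0 := h
  rw [← sub_eq_zero, ← h']
  abel

/-- The involution trick. -/
theorem conj_swap {A Ai C : B} {a d t : R} (hAi : Ai * A = 1) (hC : C * C = 1)
    (hA : QRel A a d) (hAC : QRel (A * C) t (-d)) :
    C * A = t • (1 : B) + a • C - A * C := by
  have h1 : d • Ai = a • (1 : B) - A := by
    have e := congrArg (fun X => Ai * X) hA.sq_eq
    simp only [← mul_assoc, hAi, one_mul, mul_sub, mul_smul_comm, mul_one] at e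
    rw [e]; abel
  have h2 : A * C * A = t • A + d • C := by
    have e := congrArg (fun X => X * C) hAC.sq_eq
    simp only [neg_smul, sub_neg_eq_add] at e
    rw [mul_assoc (A * C) (A * C) C, mul_assoc A C C, hC, mul_one, add_mul, smul_mul_assoc,
      smul_mul_assoc, one_mul, mul_assoc A C C, hC, mul_one] at e
    exact e
  have h3 : C * A = t • (1 : B) + d • (Ai * C) := by
    have e := congrArg (fun X => Ai * X) h2
    simp only [← mul_assoc, hAi, one_mul, mul_add, mul_smul_comm] at e
    exact e
  rw [h3, ← smul_mul_assoc, h1, sub_mul, smul_mul_assoc, one_mul]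
  abel

end swap

section rank2

variable {R : Type*} [CommRing R] [IsDomain R]
variable {V : Type*} [AddCommGroup V] [Module R V] [Module.Free R V] [Module.Finite R V]

/-- In rank two, `charpoly f = X² - tr f X + det f`. -/
theorem charpoly_eq_of_finrank_two (h2 : Module.finrank R V = 2) (f : V →ₗ[R] V) :
    f.charpoly = X ^ 2 - C (LinearMap.trace R V f) * X + C (LinearMap.det f) := by
  classical
  let b := Module.finBasisOfFinrankEq R V h2
  rw [← LinearMap.charpoly_toMatrix f b, Matrix.charpoly_fin_two,
    LinearMap.trace_eq_matrix_trace R b f, LinearMap.det_toMatrix b f]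

/-- Cayley–Hamilton in rank two, as a quadratic relation. -/
theorem qrel_trace_det (h2 : Module.finrank R V = 2) (f : V →ₗ[R] V) :
    QRel f (LinearMap.trace R V f) (LinearMap.det f) := by
  have h := LinearMap.aeval_self_charpoly f
  rw [charpoly_eq_of_finrank_two h2 f] at h
  simp only [map_add, map_sub, map_mul, map_pow, aeval_X, aeval_C, Algebra.algebraMap_eq_smul_one,
    smul_mul_assoc, one_mul] at h
  show f * f - _ • f + _ • (1 : Module.End R V) = 0
  rw [← h, sq]

/-- `f` is a scalar endomorphism. -/
def IsScalar (f : V →ₗ[R] V) : Prop := ∃ c : R, f = c • (1 : Module.End R V)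

omit [Module.Finite R V] [Module.Free R V] in
theorem smul_one_eq_zero_iff [Nontrivial V] [Module.IsTorsionFree R V] (c : R) :
    c • (1 : Module.End R V) = 0 ↔ c = 0 := by
  constructor
  · intro h
    obtain ⟨v, hv⟩ := exists_ne (0 : V)
    have := congrArg (fun g : Module.End R V => g v) h
    simp only [LinearMap.smul_apply, Module.End.one_apply, LinearMap.zero_apply] at this
    exact (smul_eq_zero.1 this).resolve_right hv
  · rintro rfl; rw [zero_smul]

/-- If `u • f = v • 1` with `u ≠ 0` then `f` is a scalar. -/
theorem isScalar_of_smul_eq (h2 : Module.finrank R V = 2) {f : V →ₗ[R] V} {u v : R}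
    (hu : u ≠ 0) (h : u • f = v • (1 : Module.End R V)) : IsScalar f := by
  classical
  let b := Module.finBasisOfFinrankEq R V h2
  -- the (0,0) coefficient
  let c : R := b.repr (f (b 0)) 0
  have hc : v = u * c := by
    have e := congrArg (fun g : Module.End R V => b.repr (g (b 0)) 0) h
    simp only [LinearMap.smul_apply, Module.End.one_apply, map_smul, Finsupp.smul_apply,
      Module.Basis.repr_self, Finsupp.single_eq_same, smul_eq_mul, mul_one] at e
    exact e.symm
  refine ⟨c, ?_⟩
  have h' : u • f = u • (c • (1 : Module.End R V)) := by rw [h, hc, mul_smul]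
  exact smul_right_injective _ hu h'

/-- Dichotomy: a quadratic relation in rank two pins down the characteristic polynomial unless
the endomorphism is a scalar. -/
theorem charpoly_eq_or_isScalar (h2 : Module.finrank R V = 2) {f : V →ₗ[R] V} {a e : R}
    (h : QRel f a e) : f.charpoly = X ^ 2 - C a * X + C e ∨ IsScalar f := by
  have hV : Nontrivial V := Module.nontrivial_of_finrank_pos (R := R) (by rw [h2]; norm_num)
  have hch := qrel_trace_det h2 f
  have hsub : (LinearMap.trace R V f - a) • f = (LinearMap.det f - e) • (1 : Module.End R V) := by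
    have h1 := hch.sq_eq
    have h3 := h.sq_eq
    rw [sub_smul, sub_smul]
    have : LinearMap.trace R V f • f - LinearMap.det f • (1 : Module.End R V)
        = a • f - e • (1 : Module.End R V) := by rw [← h1, ← h3]
    rw [sub_eq_sub_iff_add_eq_add] at this ⊢
    rw [this, add_comm]
  by_cases hta : LinearMap.trace R V f = a
  · left
    rw [hta, sub_self, zero_smul] at hsub
    have hde : LinearMap.det f = e := by
      have := (smul_one_eq_zero_iff (V := V) (LinearMap.det f - e)).1 hsub.symm
      exact sub_eq_zero.1 this
    rw [charpoly_eq_of_finrank_two h2 f, hta, hde]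
  · right
    exact isScalar_of_smul_eq h2 (sub_ne_zero.2 hta) hsub

/-- A non-scalar involution in rank two has trace `0` and determinant `-1`. -/
theorem trace_det_of_involution (h2 : Module.finrank R V = 2) {c : V →ₗ[R] V}
    (hc : c * c = 1) (hns : ¬ IsScalar c) :
    LinearMap.trace R V c = 0 ∧ LinearMap.det c = -1 := by
  have hq : QRel c (0 : R) (-1 : R) := by
    show c * c - (0 : R) • c + (-1 : R) • (1 : Module.End R V) = 0
    rw [hc, zero_smul, sub_zero, neg_smul, one_smul, add_neg_cancel]
  rcases charpoly_eq_or_isScalar h2 hq with h | h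
  · rw [charpoly_eq_of_finrank_two h2 c] at h
    have h0 := congrArg (fun q : R[X] => q.coeff 0) h
    have h1 := congrArg (fun q : R[X] => q.coeff 1) h
    simp only [coeff_add, coeff_sub, coeff_X_pow, coeff_C_mul, coeff_X_zero, coeff_X_one,
      coeff_C_zero, coeff_C_succ, mul_zero, mul_one, sub_zero, add_zero] at h0 h1
    norm_num at h0 h1
    exact ⟨h1, h0⟩
  · exact absurd h hns

/-- **Key rank-two statement.** Let `c` be a non-scalar involution of a free module of rank two
over a domain. If `f` is injective, `f² - a f + e = 0` and `(f c)² - t (f c) - e = 0`, then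
`charpoly f = X² - a X + e`. -/
theorem charpoly_eq_of_involution (h2 : Module.finrank R V = 2) {c f : V →ₗ[R] V}
    (hc : c * c = 1) (hns : ¬ IsScalar c) {a e t : R} (hf0 : f ≠ 0)
    (hf : QRel f a e) (hfc : QRel (f * c) t (-e)) :
    f.charpoly = X ^ 2 - C a * X + C e := by
  have hV : Nontrivial V := Module.nontrivial_of_finrank_pos (R := R) (by rw [h2]; norm_num)
  rcases charpoly_eq_or_isScalar h2 hf with h | ⟨l, hl⟩
  · exact h
  · -- `f = l`, so `f c = l c` is not a scalar
    have hl0 : l ≠ 0 := by
      rintro rfl
      rw [zero_smul] at hl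
      exact hf0 hl
    have hfc' : f * c = l • c := by rw [hl, smul_mul_assoc, one_mul]
    have hns' : ¬ IsScalar (f * c) := by
      rintro ⟨m, hm⟩
      rw [hfc'] at hm
      exact hns (isScalar_of_smul_eq h2 hl0 hm)
    obtain ⟨htr, hdet⟩ := trace_det_of_involution h2 hc hns
    rcases charpoly_eq_or_isScalar h2 hfc with h | h
    · rw [charpoly_eq_of_finrank_two h2 (f * c), hfc', LinearMap.det_smul, h2, hdet,
        map_smul, htr] at h
      have h0 := congrArg (fun q : R[X] => q.coeff 0) h
      simp only [coeff_add, coeff_sub, coeff_X_pow, coeff_C_mul, coeff_X_zero,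
        coeff_C_zero, mul_zero, sub_zero] at h0
      norm_num at h0
      -- `l² = e`
      have hle : l ^ 2 = e := h0
      -- from the relation for `f = l`: `l² - a l + e = 0`
      have hrel : l * l - a * l + e = 0 := by
        have hq : f * f - a • f + e • (1 : Module.End R V) = 0 := hf
        rw [hl] at hq
        simp only [smul_mul_assoc, one_mul, smul_smul] at hq
        rw [← sub_smul, ← add_smul] at hq
        have := (smul_one_eq_zero_iff (V := V) _).1 hq
        linear_combination this
      have ha : a = 2 * l := by
        have : l * (2 * l - a) = 0 := by linear_combination hrel + hle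
        rcases mul_eq_zero.1 this with h | h
        · exact absurd h hl0
        · linear_combination -h
      have htrf : LinearMap.trace R V (l • (1 : Module.End R V)) = 2 * l := by
        rw [map_smul, LinearMap.trace_one, h2, smul_eq_mul, mul_comm]
        norm_num
      have hdetf : LinearMap.det (l • (1 : Module.End R V)) = l ^ 2 := by
        rw [LinearMap.det_smul, h2, MonoidHom.map_one, mul_one]
      rw [charpoly_eq_of_finrank_two h2 f, hl, htrf, hdetf, ha, ← hle]
    · exact absurd h hns'

end rank2

end Fermat.Agent.S30.H870
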