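import Fermat.Agent.S30.H870.Quad

/-!
# Saturation, orbit spans and the structure lemma

`M` is a torsion-free module over a domain `R` with an action `ρ` of a group `G` all of whose
elements satisfy quadratic relations `ρ(g)² - a(g) ρ(g) + ε(g) = 0`, and `c ∈ G` is an involution
with `ε(c) = -1`.  We produce a nonzero `G`-stable submodule `W` on which `ρ(c) + s` has image in
a line `R x` and `ρ(c) - s` has image in a line `R y`.
-/

set_option autoImplicit false

namespace Fermat.Agent.S30.H870

section sat

variable {R : Type*} [CommRing R] [IsDomain R] {M : Type*} [AddCommGroup M] [Module R M]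

/-- Saturation of a submodule: the elements with a nonzero multiple in `W`. -/
def sat (W : Submodule R M) : Submodule R M where
  carrier := {m | ∃ r : R, r ≠ 0 ∧ r • m ∈ W}
  zero_mem' := ⟨1, one_ne_zero, by rw [smul_zero]; exact W.zero_mem⟩
  add_mem' := by
    rintro x y ⟨r, hr, hx⟩ ⟨s, hs, hy⟩
    refine ⟨r * s, mul_ne_zero hr hs, ?_⟩
    rw [smul_add]
    refine W.add_mem ?_ ?_
    · rw [mul_comm, mul_smul]; exact W.smul_mem s hx
    · rw [mul_smul]; exact W.smul_mem r hy
  smul_mem' := by
    rintro c x ⟨r, hr, hx⟩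
    exact ⟨r, hr, by rw [smul_comm]; exact W.smul_mem c hx⟩

theorem mem_sat {W : Submodule R M} {m : M} : m ∈ sat W ↔ ∃ r : R, r ≠ 0 ∧ r • m ∈ W := Iff.rfl

theorem le_sat (W : Submodule R M) : W ≤ sat W :=
  fun m hm => ⟨1, one_ne_zero, by rwa [one_smul]⟩

theorem sat_saturated {W : Submodule R M} {r : R} {m : M} (hr : r ≠ 0) (h : r • m ∈ sat W) :
    m ∈ sat W := by
  obtain ⟨s, hs, hm⟩ := h
  exact ⟨s * r, mul_ne_zero hs hr, by rwa [mul_smul]⟩

theorem sat_le_comap {W P : Submodule R M} (f : M →ₗ[R] M) (h : W ≤ P.comap f) :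
    sat W ≤ (sat P).comap f := by
  rintro m ⟨r, hr, hm⟩
  refine ⟨r, hr, ?_⟩
  rw [← map_smul]
  exact h hm

theorem exists_smul_sat_le [IsNoetherian R M] (W : Submodule R M) :
    ∃ r : R, r ≠ 0 ∧ ∀ m ∈ sat W, r • m ∈ W := by
  classical
  obtain ⟨s, hs⟩ := (IsNoetherian.noetherian (sat W) : (sat W).FG)
  have hex : ∀ x ∈ s, ∃ r : R, r ≠ 0 ∧ r • x ∈ W := fun x hx => by
    have : x ∈ sat W := hs ▸ Submodule.subset_span hx
    exact this
  choose! r hr0 hr using hex
  refine ⟨∏ x ∈ s, r x, Finset.prod_ne_zero_iff.2 hr0, ?_⟩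
  intro m hm
  rw [← hs] at hm
  induction hm using Submodule.span_induction with
  | mem x hx =>
    rw [← Finset.mul_prod_erase s r hx, mul_comm, mul_smul]
    exact W.smul_mem _ (hr x hx)
  | zero => rw [smul_zero]; exact W.zero_mem
  | add x y _ _ hx hy => rw [smul_add]; exact W.add_mem hx hy
  | smul c x _ hx => rw [smul_comm]; exact W.smul_mem c hx

/-- If a nonzero multiple of `W'` lies in the span of a finite set `T`, then
`finrank W' ≤ card T`. -/
theorem finrank_le_card_of_smul_mem [Module.IsTorsionFree R M] [IsNoetherian R M]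
    {W' : Submodule R M} {r : R} (hr : r ≠ 0) (T : Finset M)
    (h : ∀ m ∈ W', r • m ∈ Submodule.span R (T : Set M)) :
    Module.finrank R W' ≤ T.card := by
  let f : W' →ₗ[R] Submodule.span R (T : Set M) :=
    (LinearMap.lsmul R M r).restrict (p := W') (q := Submodule.span R (T : Set M)) h
  have hf : Function.Injective f := by
    intro a b hab
    have h1 : r • (a : M) = r • (b : M) := congrArg Subtype.val hab
    exact Subtype.ext (smul_right_injective M hr h1)
  exact (LinearMap.finrank_le_finrank_of_injective hf).trans (finrank_span_finset_le_card T)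

end sat

section orbit

variable {R : Type*} [CommRing R] {M : Type*} [AddCommGroup M] [Module R M]
variable {G : Type*} [Group G] (ρ : G →* Module.End R M)

/-- The submodule spanned by the orbit of `x`. -/
def orbitSpan (x : M) : Submodule R M := Submodule.span R (Set.range fun g => ρ g x)

theorem mem_orbitSpan_self (x : M) : x ∈ orbitSpan ρ x :=
  Submodule.subset_span ⟨1, by simp⟩

theorem orbitSpan_stable (x : M) (g : G) : orbitSpan ρ x ≤ (orbitSpan ρ x).comap (ρ g) := by
  rw [orbitSpan, Submodule.span_le]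
  rintro _ ⟨h, rfl⟩
  show ρ g (ρ h x) ∈ Submodule.span R (Set.range fun g => ρ g x)
  rw [← Module.End.mul_apply, ← map_mul]
  exact Submodule.subset_span ⟨g * h, rfl⟩

theorem orbitSpan_le {W : Submodule R M} (hW : ∀ g, W ≤ W.comap (ρ g)) {x : M} (hx : x ∈ W) :
    orbitSpan ρ x ≤ W := by
  rw [orbitSpan, Submodule.span_le]
  rintro _ ⟨g, rfl⟩
  exact hW g hx

/-- The restriction of `ρ` to a stable submodule. -/
def subRep (W : Submodule R M) (hW : ∀ g, W ≤ W.comap (ρ g)) : G →* Module.End R W where
  toFun g := (ρ g).restrict (hW g)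
  map_one' := by
    ext w
    simp
  map_mul' g h := by
    ext w
    simp

@[simp] theorem subRep_apply (W : Submodule R M) (hW : ∀ g, W ≤ W.comap (ρ g)) (g : G) (w : W) :
    ((subRep ρ W hW g w : W) : M) = ρ g (w : M) := rfl

theorem QRel.restrict {W : Submodule R M} {f : Module.End R M} (hW : W ≤ W.comap f) {a d : R}
    (h : QRel f a d) : QRel (f.restrict hW : Module.End R W) a d := by
  have h' : f * f - a • f + d • (1 : Module.End R M) = 0 := h
  show (f.restrict hW : Module.End R W) * f.restrict hW - a • f.restrict hW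
    + d • (1 : Module.End R W) = 0
  ext w
  have := congrArg (fun g : Module.End R M => g (w : M)) h'
  simpa using this

variable (ε : G →* Rˣ)

/-- On the orbit span of an eigenvector `x` of the involution `c` (eigenvalue `s`), the operator
`ρ(c) + s` has image in `R x`. -/
theorem orbitSpan_le_comap (hrel : ∀ g, ∃ a : R, QRel (ρ g) a (ε g : R))
    {c : G} (hc : c * c = 1) (hεc : ε c = -1) {x : M} {s : R} (hx : ρ c x = s • x) :
    orbitSpan ρ x ≤ (Submodule.span R {x}).comap (ρ c + s • (1 : Module.End R M)) := by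
  rw [orbitSpan, Submodule.span_le]
  rintro _ ⟨g, rfl⟩
  obtain ⟨a, ha⟩ := hrel g
  obtain ⟨t, ht⟩ := hrel (g * c)
  have ht' : QRel (ρ g * ρ c) t (-(ε g : R)) := by
    have : ((ε (g * c) : Rˣ) : R) = -(ε g : R) := by
      rw [map_mul, hεc, Units.val_mul, Units.val_neg, Units.val_one, mul_neg, mul_one]
    rw [← this, ← map_mul]
    exact ht
  have hinv : ρ g⁻¹ * ρ g = 1 := by rw [← map_mul, inv_mul_cancel, map_one]
  have hcc : ρ c * ρ c = 1 := by rw [← map_mul, hc, map_one]
  have key := conj_swap hinv hcc ha ht'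
  have key' := congrArg (fun f : Module.End R M => f x) key
  simp only [Module.End.mul_apply, LinearMap.sub_apply, LinearMap.add_apply,
    LinearMap.smul_apply, Module.End.one_apply, hx, map_smul] at key'
  show (ρ c + s • (1 : Module.End R M)) (ρ g x) ∈ Submodule.span R {x}
  rw [LinearMap.add_apply, LinearMap.smul_apply, Module.End.one_apply, key']
  have : t • x + a • s • x - s • (ρ g) x + s • (ρ g) x = (t + a * s) • x := by
    rw [sub_add_cancel, add_smul, mul_smul]
  rw [this]
  exact Submodule.smul_mem _ _ (Submodule.mem_span_singleton_self x)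

/-- Existence of an eigenvector of an involution. -/
theorem exists_eigenvector_of_involution [Nontrivial M] {C : Module.End R M} (hC : C * C = 1) :
    ∃ (x : M) (s : R), x ≠ 0 ∧ s * s = 1 ∧ C x = s • x := by
  obtain ⟨m, hm⟩ := exists_ne (0 : M)
  have hCC : ∀ v, C (C v) = v := fun v => by
    have := congrArg (fun f : Module.End R M => f v) hC
    simpa using this
  by_cases h : m + C m = 0
  · refine ⟨m, -1, hm, by ring, ?_⟩
    rw [neg_smul, one_smul]
    exact (eq_neg_of_add_eq_zero_right h)
  · refine ⟨m + C m, 1, h, by ring, ?_⟩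
    rw [map_add, hCC, one_smul, add_comm]

/-- **Structure lemma.** -/
theorem exists_structure [Nontrivial M]
    (hrel : ∀ g, ∃ a : R, QRel (ρ g) a (ε g : R))
    {c : G} (hc : c * c = 1) (hεc : ε c = -1) :
    ∃ (W : Submodule R M) (x y : M) (s : R), W ≠ ⊥ ∧ (∀ g, W ≤ W.comap (ρ g)) ∧ s * s = 1 ∧
      (∀ w ∈ W, ρ c w + s • w ∈ Submodule.span R {x}) ∧
      (∀ w ∈ W, ρ c w - s • w ∈ Submodule.span R {y}) := by
  have hcc : ρ c * ρ c = 1 := by rw [← map_mul, hc, map_one]
  have hCC : ∀ v, ρ c (ρ c v) = v := fun v => by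
    have := congrArg (fun f : Module.End R M => f v) hcc
    simpa using this
  obtain ⟨x, s, hx0, hs, hx⟩ := exists_eigenvector_of_involution hcc
  have hplus := orbitSpan_le_comap ρ ε hrel hc hεc hx
  by_cases hA : ∀ w ∈ orbitSpan ρ x, ρ c w - s • w = 0
  · refine ⟨orbitSpan ρ x, x, 0, s, ?_, orbitSpan_stable ρ x, hs, ?_, ?_⟩
    · intro h
      have := mem_orbitSpan_self ρ x
      rw [h, Submodule.mem_bot] at this
      exact hx0 this
    · intro w hw
      have := hplus hw
      simpa using this
    · intro w hw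
      rw [hA w hw]
      exact Submodule.zero_mem _
  · push Not at hA
    obtain ⟨w, hw, hy0⟩ := hA
    set y := ρ c w - s • w with hy
    have hyW : y ∈ orbitSpan ρ x :=
      Submodule.sub_mem _ (orbitSpan_stable ρ x c hw) (Submodule.smul_mem _ _ hw)
    have hyc : ρ c y = (-s) • y := by
      rw [hy, map_sub, hCC, map_smul, smul_sub, neg_smul, neg_smul, smul_smul, hs, one_smul]
      abel
    have hle : orbitSpan ρ y ≤ orbitSpan ρ x := orbitSpan_le ρ (orbitSpan_stable ρ x) hyW
    have hminus := orbitSpan_le_comap ρ ε hrel hc hεc hyc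
    refine ⟨orbitSpan ρ y, x, y, s, ?_, orbitSpan_stable ρ y, hs, ?_, ?_⟩
    · intro h
      have := mem_orbitSpan_self ρ y
      rw [h, Submodule.mem_bot] at this
      exact hy0 this
    · intro v hv
      have := hplus (hle hv)
      simpa using this
    · intro v hv
      have := hminus hv
      simpa [sub_eq_add_neg] using this

end orbit

end Fermat.Agent.S30.H870
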